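/-
C1 nodal core, instantiation, block G (helper95).  TASK G-D1: dictionary, part 1.
Over a discrete valuation ring `A₀` (in the form `S18.IsUnif A₀ ϖ₀`): a Gauss valuation ring `Ow` in the
sense of `S18.IsGauss` is the Gauss ring `S18.Vert.gaussSubring A₀ L`, and the kernel of `Inst.rho` is
`ϖ₀ Ow`.

Notation: `S18.Gauss.iota A₀`, `S18.Gauss.rho A₀` (series level) are the same maps as `S18.Vert.inc A₀`,
`S18.Vert.red A₀` and as `coeffMap A₀.subtype`, `coeffMap (IsLocalRing.residue A₀)` (unfold / `rfl`).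

Proofs.
`mem_gaussSubring_iff_mem`.  (→) `y * inc Q = inc P`, `red Q ≠ 0`: `y = P * Q⁻¹`, `hG.mem`, `hG.inv_mem`.
(←) `y = 0` trivial.  Otherwise the normal form `hN y y.2 _ : y * iota Q = cst (ϖ₀ ^ n) * iota P` with
`rho P ≠ 0`, `rho Q ≠ 0`.  If `0 ≤ n`: `y * inc Q = inc (C ϖ₀ ^ n * P)`.  If `n < 0`: `P / Q` is a unit of
`Ow` (`hG.mem`, `hG.inv_mem` for both), so `ϖ₀ ^ n ∈ Ow`, hence `ϖ₀⁻¹ = ϖ₀ ^ n * ϖ₀ ^ (- n - 1) ∈ Ow`,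
contradiction with `hG.unif.inv_notMem`.
`rho_eq_zero_iff`.  (←) `z := y / ϖ₀ ∈ Ow = gaussSubring`, `y = ϖ₀ * z`, `rho (ϖ₀) = 0`
(`rho_algebraMap`, `residue ϖ₀ = 0`: `S18.Gauss.residue_eq_zero_iff`).  (→) `y * inc Q = inc P`,
`rho y * red Q = red P` (`rho_spec`), so `red P = 0`, `inc P = cst ϖ₀ * inc P'`
(`S18.Gauss.exists_eq_cst_mul`), `inc P' = ϖ₀⁻¹ * inc P ∈ L`, `(y / ϖ₀) * inc Q = inc P'`.
`isVal_of_hasNf`: from the normal form, as in `mem_gaussSubring_iff_mem`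
(`n ≥ 0`: `y` is Gauss integral; `n < 0`: `y⁻¹ * inc P = inc (C ϖ₀ ^ (-n) * Q)` and the reduction of
the right hand side is zero, `rho_spec`).  No `Ow` is needed.
`exists_pow_mul_mem_gauss`: from the normal form.
-/
import Fermat.Agent.S34.Nodal.Inst.G.HasRed
import Fermat.Agent.S18.Gauss.Basic

set_option autoImplicit false

noncomputable section

namespace Fermat.Agent.S34.Nodal.Inst

open ModularCurve Fermat.Agent.S18 Fermat.Agent.S18.Vert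

variable {K₀ : Type*} [Field K₀] {A₀ : ValuationSubring K₀} {ϖ₀ : K₀}
variable {L : IntermediateField K₀ (LaurentSeries K₀)}

theorem gauss_residue_unif (h₀ : IsUnif A₀ ϖ₀) :
    IsLocalRing.residue A₀ (⟨ϖ₀, h₀.mem⟩ : A₀) = 0 := by
  rw [Gauss.residue_eq_zero_iff h₀]
  show ϖ₀ / ϖ₀ ∈ A₀
  rw [div_self h₀.ne_zero]
  exact A₀.one_mem

/-- A normal form with nonnegative exponent: Gauss integral; reduction zero if the exponent is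
positive. -/
theorem gauss_mem_of_nf (h₀ : IsUnif A₀ ϖ₀) (y : L) (m : ℕ) (P Q : LaurentSeries A₀)
    (hP : inc A₀ P ∈ L) (hQ : inc A₀ Q ∈ L) (hQ0 : red A₀ Q ≠ 0)
    (e : (y : LaurentSeries K₀) * inc A₀ Q = Gauss.cst (ϖ₀ ^ m) * inc A₀ P) :
    ∃ h : y ∈ gaussSubring A₀ L, 0 < m → rho A₀ L ⟨y, h⟩ = 0 := by
  have hm : ϖ₀ ^ m ∈ A₀ := A₀.pow_mem h₀.mem m
  have e1 : inc A₀ (HahnSeries.C (⟨ϖ₀ ^ m, hm⟩ : A₀) * P) = Gauss.cst (ϖ₀ ^ m) * inc A₀ P := by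
    rw [map_mul, inc_C]
  have hP1 : inc A₀ (HahnSeries.C (⟨ϖ₀ ^ m, hm⟩ : A₀) * P) ∈ L := by
    rw [e1]
    exact mul_mem (Gauss.cst_mem _) hP
  have hy : y ∈ gaussSubring A₀ L := ⟨_, Q, hP1, hQ, hQ0, by rw [e1]; exact e⟩
  refine ⟨hy, fun hpos => ?_⟩
  have h1 := rho_spec (A := A₀) (F := L) ⟨y, hy⟩ hQ0 (P := HahnSeries.C (⟨ϖ₀ ^ m, hm⟩ : A₀) * P)
    (by rw [e1]; exact e)
  have h2 : IsLocalRing.residue A₀ (⟨ϖ₀ ^ m, hm⟩ : A₀) = 0 := by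
    have : (⟨ϖ₀ ^ m, hm⟩ : A₀) = (⟨ϖ₀, h₀.mem⟩ : A₀) ^ m := Subtype.ext rfl
    rw [this, map_pow, gauss_residue_unif h₀, zero_pow hpos.ne']
  rw [map_mul, red_C, h2, map_zero, zero_mul] at h1
  exact (mul_eq_zero.mp h1).resolve_right hQ0

theorem isVal_of_hasNf (h₀ : IsUnif A₀ ϖ₀) (hN : Gauss.HasNf A₀ ϖ₀ L) : IsVal A₀ L := by
  intro y hy0
  have hy0' : (y : LaurentSeries K₀) ≠ 0 := fun h => hy0 (Subtype.ext h)
  obtain ⟨n, P, Q, hP, hQ, hP0, hQ0, e⟩ := hN y y.2 hy0'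
  rcases le_or_gt 0 n with hn | hn
  · left
    obtain ⟨m, rfl⟩ := Int.eq_ofNat_of_zero_le hn
    rw [zpow_natCast] at e
    exact (gauss_mem_of_nf h₀ y m P Q hP hQ hQ0 e).1
  · right
    obtain ⟨m, hm⟩ := Int.eq_ofNat_of_zero_le (show 0 ≤ -n by omega)
    have hz : Gauss.cst (ϖ₀ ^ n) ≠ 0 := Gauss.cst_ne_zero (zpow_ne_zero _ h₀.ne_zero)
    have e' : ((y⁻¹ : L) : LaurentSeries K₀) * inc A₀ P = Gauss.cst (ϖ₀ ^ m) * inc A₀ Q := by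
      have h1 : Gauss.cst (ϖ₀ ^ m) = (Gauss.cst (ϖ₀ ^ n))⁻¹ := by
        rw [← Gauss.cst_inv, ← zpow_neg, hm, zpow_natCast]
      rw [h1]
      show (y : LaurentSeries K₀)⁻¹ * Fermat.Agent.S28.Export.iota A₀ P = (Gauss.cst (ϖ₀ ^ n))⁻¹ * Fermat.Agent.S28.Export.iota A₀ Q
      field_simp
      rw [mul_comm, ← e, mul_comm]
    obtain ⟨h, h'⟩ := gauss_mem_of_nf h₀ y⁻¹ m Q P hQ hP hP0 e'
    exact ⟨h, h' (by omega)⟩

theorem exists_pow_mul_mem_gauss (h₀ : IsUnif A₀ ϖ₀) (hN : Gauss.HasNf A₀ ϖ₀ L) (y : L) :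
    ∃ m : ℕ, algebraMap K₀ L ϖ₀ ^ m * y ∈ gaussSubring A₀ L := by
  rcases eq_or_ne y 0 with rfl | hy0
  · exact ⟨0, by rw [mul_zero]; exact zero_mem _⟩
  have hy0' : (y : LaurentSeries K₀) ≠ 0 := fun h => hy0 (Subtype.ext h)
  obtain ⟨n, P, Q, hP, hQ, hP0, hQ0, e⟩ := hN y y.2 hy0'
  obtain ⟨k, hk⟩ := Int.eq_ofNat_of_zero_le (show 0 ≤ ((-n).toNat : ℤ) + n by omega)
  refine ⟨(-n).toNat, (gauss_mem_of_nf h₀ _ k P Q hP hQ hQ0 ?_).1⟩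
  have h1 : Gauss.cst (ϖ₀ ^ k) = Gauss.cst ϖ₀ ^ (-n).toNat * Gauss.cst (ϖ₀ ^ n) := by
    rw [← map_pow, ← Gauss.cst_mul, ← zpow_natCast ϖ₀ k, ← hk, zpow_add₀ h₀.ne_zero, zpow_natCast]
  rw [h1]
  show Gauss.cst ϖ₀ ^ (-n).toNat * (y : LaurentSeries K₀) * Fermat.Agent.S28.Export.iota A₀ Q =
    Gauss.cst ϖ₀ ^ (-n).toNat * Gauss.cst (ϖ₀ ^ n) * Fermat.Agent.S28.Export.iota A₀ P
  rw [mul_assoc, e, mul_assoc]

theorem rho_eq_zero_iff (h₀ : IsUnif A₀ ϖ₀) (y : gaussSubring A₀ L) :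
    rho A₀ L y = 0 ↔ (y : L) / algebraMap K₀ L ϖ₀ ∈ gaussSubring A₀ L := by
  have hϖL : algebraMap K₀ L ϖ₀ ≠ 0 := fun h => h₀.ne_zero ((map_eq_zero _).1 h)
  have hc : Gauss.cst ϖ₀ ≠ 0 := Gauss.cst_ne_zero h₀.ne_zero
  constructor
  · intro h
    obtain ⟨P, Q, hP, hQ, hQ0, e⟩ := y.2
    have h1 := rho_spec y hQ0 e
    rw [h, zero_mul] at h1
    obtain ⟨P', hP'⟩ := Gauss.exists_eq_cst_mul h₀ P h1.symm
    have hP'' : inc A₀ P' = (Gauss.cst ϖ₀)⁻¹ * inc A₀ P := by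
      show Fermat.Agent.S28.Export.iota A₀ P' = (Gauss.cst ϖ₀)⁻¹ * Fermat.Agent.S28.Export.iota A₀ P
      rw [hP', inv_mul_cancel_left₀ hc]
    refine ⟨P', Q, ?_, hQ, hQ0, ?_⟩
    · rw [hP'']
      exact mul_mem (inv_mem (Gauss.cst_mem _)) hP
    · rw [hP'', ← e]
      show ((y : L) : LaurentSeries K₀) / Gauss.cst ϖ₀ * inc A₀ Q = _
      rw [div_eq_mul_inv]
      ring
  · intro h
    have e : y = ⟨algebraMap K₀ L ((⟨ϖ₀, h₀.mem⟩ : A₀) : K₀), algebraMap_mem_gauss A₀ L _⟩ *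
        ⟨_, h⟩ := by
      apply Subtype.ext
      show (y : L) = algebraMap K₀ L ϖ₀ * ((y : L) / algebraMap K₀ L ϖ₀)
      rw [mul_div_cancel₀ _ hϖL]
    rw [e, map_mul, rho_algebraMap, gauss_residue_unif h₀, map_zero, zero_mul]

theorem mem_gaussSubring_iff_mem (h₀ : IsUnif A₀ ϖ₀) (hN : Gauss.HasNf A₀ ϖ₀ L)
    {Ow : ValuationSubring L} (hG : IsGauss A₀ ϖ₀ L Ow) (y : L) :
    y ∈ gaussSubring A₀ L ↔ y ∈ Ow := by
  have hle : ∀ z : L, z ∈ gaussSubring A₀ L → z ∈ Ow := by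
    rintro z ⟨P, Q, hP, hQ, hQ0, e⟩
    have hQ' : (⟨_, hQ⟩ : L) ≠ 0 := fun h => inc_ne_zero' hQ0 (congrArg Subtype.val h)
    have e' : z = (⟨_, hP⟩ : L) * (⟨_, hQ⟩ : L)⁻¹ := by
      rw [eq_mul_inv_iff_mul_eq₀ hQ']
      exact Subtype.ext e
    rw [e']
    exact mul_mem (hG.mem P hP) (hG.inv_mem Q hQ hQ0)
  refine ⟨hle y, fun hy => ?_⟩
  rcases eq_or_ne y 0 with rfl | hy0
  · exact zero_mem _
  rcases isVal_of_hasNf h₀ hN y hy0 with h | ⟨h, h'⟩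
  · exact h
  · exfalso
    have h1 := hle _ ((rho_eq_zero_iff h₀ _).mp h')
    apply hG.unif.inv_notMem
    have e : (algebraMap K₀ L ϖ₀)⁻¹ = y * (y⁻¹ / algebraMap K₀ L ϖ₀) := by
      field_simp
    rw [e]
    exact mul_mem hy h1

end Fermat.Agent.S34.Nodal.Inst

end
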