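/-
C1 nodal core, instantiation, block G (helper95).  TASK G-D2: dictionary, part 2.
`S18.chart A₀.toSubring x` (the integral closure of `A₀[x]`) is `Inst.chart' A₀ L x` (Gauss integral
and integral over `K₀[x]`); consequences of `S18.IsChart`, `S18.IsCover` in the language of `Inst.bb`.

Proofs.
`mem_chart'_iff`: `S18.mem_chart_iff hV hx` (`S18/Chart/Mem.lean`), `hO`, and
`z ∈ S18.chart ⊤ x ↔ IsIntegral (Algebra.adjoin K₀ {x}) z` (`S18.isIntegral_adjoin_of_mem_chart_top` and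
its converse; `S18.polyRing ⊤ x` and `Algebra.adjoin K₀ {x}` have the same elements,
`Algebra.adjoin_singleton_eq_range_aeval`, `S18.mem_polyRing_iff`).
`int_of_isChart`: `rho y ^ n = rho c`, `c ∈ chart' = B`.  `p := X ^ n - C c` is monic (`0 < n`,
`Polynomial.monic_X_pow_sub_C`), with coefficients in `B`, `p.eval y = y ^ n - c`, `rho (y ^ n - c) = 0`,
so `(y ^ n - c) / ϖ ∈ Ow` (`hρ`), `Ow.valuation (p.eval y) < 1`
(`BAD.LevelQ.Residue.val_lt_one_of_div_mem`).  `BAD.LevelQ.IsChart.exists_congr_of_integral` gives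
`b ∈ B` with `Ow.valuation (y - b) < 1`, i.e. `(y - b) / ϖ ∈ Ow`
(`BAD.LevelQ.Residue.div_mem_of_val_lt_one`), so `rho (y - b) = 0` and `rho y = rho b ∈ bb`.
`fin_of_isCover`: `S := ` the image of `hcov.fin₁`'s finite set under `e ↦ ⟨rho e, _⟩`.  For `y = rho b`,
`b ∈ B₁`: `b` is in the `A₀`-span of the `x ^ a * e`; prove by `Submodule.span_induction` that for every
`b` in this span (it is then in `B₁`, hence Gauss integral) `rho b` is in the `k`-span of the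
`xb ^ a * rho e` (scalars: `rho (algebraMap a * z) = residue a • rho z`, `rho_algebraMap`,
`Algebra.smul_def`).  It is convenient to state the induction for the additive map
`chart' → bb` and `Submodule.span` over `A₀.toSubring.map _`.
-/
import Fermat.Agent.S34.Nodal.Inst.G.Good.Gauss
import Fermat.Agent.S18.Chart.Mem
import Fermat.Agent.BAD.LevelQ.Abs.Residue

set_option autoImplicit false

noncomputable section

namespace Fermat.Agent.S34.Nodal.Inst

open ModularCurve Fermat.Agent.S18 Fermat.Agent.S18.Vert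

variable {K₀ : Type*} [Field K₀] {A₀ : ValuationSubring K₀} {ϖ₀ : K₀}
variable {L : IntermediateField K₀ (LaurentSeries K₀)} {Ow : ValuationSubring L}

theorem mem_chart'_iff {E : IntermediateField K₀ L} {x : L} (hV : IsVert A₀ ϖ₀ Ow E)
    (hx : IsCoord A₀ ϖ₀ Ow E x) (hO : ∀ y : L, y ∈ gaussSubring A₀ L ↔ y ∈ Ow) (z : L) :
    z ∈ chart' A₀ L x ↔ z ∈ S18.chart A₀.toSubring x := by
  rw [mem_chart', S18.mem_chart_iff hV hx z, hO z]
  refine and_congr_right fun _ => ⟨fun h => ?_, S18.isIntegral_adjoin_of_mem_chart_top⟩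
  rw [S18.mem_chart_iff_isIntegral]
  exact S18.isIntegral_of_forall_exists_algebraMap
    (fun r => ⟨⟨r.1, (S18.mem_polyRing_top_iff x r.1).mpr r.2⟩, rfl⟩) h

theorem int_of_isChart {x : L} {B : Subring L} (hU : IsUnif Ow (algebraMap K₀ L ϖ₀))
    (hC : IsChart Ow (algebraMap K₀ L ϖ₀) B) (hO : ∀ y : L, y ∈ gaussSubring A₀ L ↔ y ∈ Ow)
    (hρ : ∀ y : gaussSubring A₀ L,
      rho A₀ L y = 0 ↔ (y : L) / algebraMap K₀ L ϖ₀ ∈ gaussSubring A₀ L)
    (hB : ∀ z : L, z ∈ chart' A₀ L x ↔ z ∈ B) {n : ℕ} (hn : 0 < n) (y : gaussSubring A₀ L)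
    (hy : rho A₀ L y ^ n ∈ bb A₀ L x) : rho A₀ L y ∈ bb A₀ L x := by
  obtain ⟨c, hc, hcy⟩ := mem_bb.1 hy
  have hcB : (c : L) ∈ B := (hB _).1 hc
  have hmonic : (Polynomial.X ^ n - Polynomial.C (c : L)).Monic :=
    Polynomial.monic_X_pow_sub_C (c : L) hn.ne'
  have hcoeff : ∀ i, (Polynomial.X ^ n - Polynomial.C (c : L)).coeff i ∈ B := by
    intro i
    rw [Polynomial.coeff_sub, Polynomial.coeff_X_pow, Polynomial.coeff_C]
    refine B.sub_mem ?_ ?_
    · split_ifs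
      · exact B.one_mem
      · exact B.zero_mem
    · split_ifs
      · exact hcB
      · exact B.zero_mem
  have hev : (Polynomial.X ^ n - Polynomial.C (c : L)).eval (y : L) = ((y ^ n - c : gaussSubring A₀ L) : L) := by
    simp
  have h0 : rho A₀ L (y ^ n - c) = 0 := by rw [map_sub, map_pow, hcy, sub_self]
  have h1 : Ow.valuation ((Polynomial.X ^ n - Polynomial.C (c : L)).eval (y : L)) < 1 := by
    rw [hev]
    exact BAD.LevelQ.Residue.val_lt_one_of_div_mem hU ((hO _).1 ((hρ _).1 h0))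
  obtain ⟨b, hb, hyb⟩ := BAD.LevelQ.IsChart.exists_congr_of_integral hU hC ((hO _).1 y.2) _ hmonic
    hcoeff h1
  have hb' : b ∈ chart' A₀ L x := (hB b).2 hb
  have h2 : rho A₀ L (y - ⟨b, (mem_chart'.1 hb').1⟩) = 0 :=
    (hρ _).2 ((hO _).2 (BAD.LevelQ.Residue.div_mem_of_val_lt_one hU hyb))
  rw [map_sub, sub_eq_zero] at h2
  exact mem_bb.2 ⟨⟨b, (mem_chart'.1 hb').1⟩, hb', h2.symm⟩

theorem fin_of_isCover {x : L} {B₁ B₂ : Subring L}
    (hcov : IsCover (A₀.toSubring.map (algebraMap K₀ L)) x B₁ B₂)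
    (hB : ∀ z : L, z ∈ chart' A₀ L x ↔ z ∈ B₁) (hx : x ∈ gaussSubring A₀ L) (xb : bb A₀ L x)
    (hxb : (xb : LaurentSeries (kk A₀)) = rho A₀ L ⟨x, hx⟩) :
    ∃ S : Finset (bb A₀ L x), ∀ y : bb A₀ L x,
      y ∈ Submodule.span (kk A₀) {z : bb A₀ L x | ∃ g ∈ S, ∃ a : ℕ, z = xb ^ a * g} := by
  classical
  obtain ⟨S, hS, hspan⟩ := hcov.fin₁
  -- the reduction map `chart' → bb`
  let π : chart' A₀ L x →+* bb A₀ L x :=
    RingHom.codRestrict ((rho A₀ L).comp (Subring.inclusion inf_le_left)) (bb A₀ L x)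
      (fun y => ⟨⟨y, y.2.1⟩, y.2, rfl⟩)
  have hπ : ∀ y : chart' A₀ L x, ((π y : bb A₀ L x) : LaurentSeries (kk A₀)) =
      rho A₀ L ⟨y, y.2.1⟩ := fun y => rfl
  have hxc : x ∈ chart' A₀ L x := (hB x).2 hcov.x_mem
  have hπx : π ⟨x, hxc⟩ = xb := Subtype.ext (by rw [hπ, hxb])
  let S' : Finset (bb A₀ L x) :=
    S.attach.image fun e : {e : L // e ∈ S} => π ⟨e.1, (hB e.1).2 (hS e.1 e.2)⟩
  refine ⟨S', fun y => ?_⟩
  set T : Set (bb A₀ L x) := {z : bb A₀ L x | ∃ g ∈ S', ∃ a : ℕ, z = xb ^ a * g} with hT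
  have key : ∀ b ∈ Submodule.span (A₀.toSubring.map (algebraMap K₀ L))
      {y : L | ∃ (a : ℕ) (e : L), e ∈ S ∧ y = x ^ a * e},
      ∃ hb : b ∈ chart' A₀ L x, π ⟨b, hb⟩ ∈ Submodule.span (kk A₀) T := by
    intro b hb
    induction hb using Submodule.span_induction with
    | mem b hb =>
      obtain ⟨a, e, he, rfl⟩ := hb
      have hec : e ∈ chart' A₀ L x := (hB e).2 (hS e he)
      refine ⟨(chart' A₀ L x).mul_mem ((chart' A₀ L x).pow_mem hxc a) hec, ?_⟩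
      apply Submodule.subset_span
      refine ⟨π ⟨e, hec⟩, Finset.mem_image.2 ⟨(⟨e, he⟩ : {e : L // e ∈ S}), Finset.mem_attach _ _, rfl⟩, a, ?_⟩
      rw [← hπx, ← map_pow, ← map_mul]
      rfl
    | zero =>
      refine ⟨(chart' A₀ L x).zero_mem, ?_⟩
      have : (⟨0, (chart' A₀ L x).zero_mem⟩ : chart' A₀ L x) = 0 := rfl
      rw [this, map_zero]
      exact Submodule.zero_mem _
    | add b b' _ _ ih ih' =>
      obtain ⟨hb, h1⟩ := ih
      obtain ⟨hb', h2⟩ := ih'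
      refine ⟨(chart' A₀ L x).add_mem hb hb', ?_⟩
      have : (⟨b + b', (chart' A₀ L x).add_mem hb hb'⟩ : chart' A₀ L x) =
          ⟨b, hb⟩ + ⟨b', hb'⟩ := rfl
      rw [this, map_add]
      exact Submodule.add_mem _ h1 h2
    | smul c b _ ih =>
      obtain ⟨hb, h1⟩ := ih
      obtain ⟨c, a, ha, rfl⟩ := c
      have hcc : algebraMap K₀ L a ∈ chart' A₀ L x :=
        (hB _).2 (hcov.le₁ ⟨a, ha, rfl⟩)
      refine ⟨(chart' A₀ L x).mul_mem hcc hb, ?_⟩
      have e1 : (⟨algebraMap K₀ L a * b, (chart' A₀ L x).mul_mem hcc hb⟩ : chart' A₀ L x) =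
          ⟨algebraMap K₀ L a, hcc⟩ * ⟨b, hb⟩ := rfl
      have e2 : π ⟨algebraMap K₀ L a, hcc⟩ =
          algebraMap (kk A₀) (bb A₀ L x) (IsLocalRing.residue A₀ ⟨a, ha⟩) := by
        apply Subtype.ext
        rw [hπ]
        exact rho_algebraMap A₀ L ⟨a, ha⟩
      show π ⟨algebraMap K₀ L a * b, _⟩ ∈ _
      rw [e1, map_mul, e2, ← Algebra.smul_def]
      exact Submodule.smul_mem _ _ h1
  obtain ⟨y, ⟨b, hb, rfl⟩⟩ := y
  obtain ⟨hb', h⟩ := key b (hspan b ((hB b).1 hb))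
  exact h

end Fermat.Agent.S34.Nodal.Inst

end
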