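/-
C1 nodal core, instantiation, block G (helper95): the good level `M` over a discrete valuation ring
(assembly of the dictionary with `S18/Export/IsChartBase.lean`).
For `D : S18.BaseData M ℓ`, `F' = S18.FK K₀ M`, `x' = D.xK K₀` or its inverse:
`n`-root closedness of `bb` in the residue field, and finiteness of `bb` over `k[xb]`.
-/
import Fermat.Agent.S34.Nodal.Inst.G.Good.Chart
import Fermat.Agent.S18.Export.IsChartBase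

set_option autoImplicit false

noncomputable section

namespace Fermat.Agent.S34.Nodal.Inst

open ModularCurve Fermat.Agent.S18 Fermat.Agent.S18.Vert Fermat.Agent.S18.Export Fermat.Agent.S24

variable {K₀ : Type*} [Field K₀] [Algebra ℚ K₀] {A₀ : ValuationSubring K₀} {ϖ₀ : K₀}
variable {M ℓ : ℕ} [NeZero M] [Fact ℓ.Prime]

theorem isVal_FK (h₀ : IsUnif A₀ ϖ₀) (N : ℕ) : IsVal A₀ (FK K₀ N) :=
  isVal_of_hasNf h₀ (Gauss.hasNf_FK h₀ N)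

theorem xK_mem_gauss (h₀ : IsUnif A₀ ϖ₀) (D : BaseData M ℓ) :
    D.xK K₀ ∈ gaussSubring A₀ (FK K₀ M) := by
  obtain ⟨Ow, hG⟩ := exists_isGauss h₀ M
  exact (mem_gaussSubring_iff_mem h₀ (Gauss.hasNf_FK h₀ M) hG _).2 (isCoord_base h₀ D hG).mem

theorem xK_inv_mem_gauss (h₀ : IsUnif A₀ ϖ₀) (D : BaseData M ℓ) :
    (D.xK K₀)⁻¹ ∈ gaussSubring A₀ (FK K₀ M) := by
  obtain ⟨Ow, hG⟩ := exists_isGauss h₀ M
  exact (mem_gaussSubring_iff_mem h₀ (Gauss.hasNf_FK h₀ M) hG _).2 (isCoord_base_inv h₀ D hG).mem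

/-- `n`-root closedness at level `M`, chart `x'`. -/
theorem int_base [Algebra K₀ Kbar] (h₀ : IsUnif A₀ ϖ₀) (hℓ : ¬ ℓ ∣ M) (hℓA : (ℓ : K₀) / ϖ₀ ∈ A₀)
    (D : BaseData M ℓ) {n : ℕ} (hn : 0 < n) (y : gaussSubring A₀ (FK K₀ M))
    (hy : rho A₀ (FK K₀ M) y ^ n ∈ bb A₀ (FK K₀ M) (D.xK K₀)) :
    rho A₀ (FK K₀ M) y ∈ bb A₀ (FK K₀ M) (D.xK K₀) := by
  obtain ⟨Ow, hG⟩ := exists_isGauss h₀ M
  have hO := mem_gaussSubring_iff_mem h₀ (Gauss.hasNf_FK h₀ M) hG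
  exact int_of_isChart hG.unif (isChart_base h₀ hℓ hℓA D hG) hO (rho_eq_zero_iff h₀)
    (mem_chart'_iff (isVert_base h₀ hℓ hℓA D hG) (isCoord_base h₀ D hG) hO) hn y hy

/-- `n`-root closedness at level `M`, chart `x'⁻¹`. -/
theorem int_base_inv [Algebra K₀ Kbar] (h₀ : IsUnif A₀ ϖ₀) (hℓ : ¬ ℓ ∣ M)
    (hℓA : (ℓ : K₀) / ϖ₀ ∈ A₀) (D : BaseData M ℓ) {n : ℕ} (hn : 0 < n)
    (y : gaussSubring A₀ (FK K₀ M))
    (hy : rho A₀ (FK K₀ M) y ^ n ∈ bb A₀ (FK K₀ M) (D.xK K₀)⁻¹) :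
    rho A₀ (FK K₀ M) y ∈ bb A₀ (FK K₀ M) (D.xK K₀)⁻¹ := by
  obtain ⟨Ow, hG⟩ := exists_isGauss h₀ M
  have hO := mem_gaussSubring_iff_mem h₀ (Gauss.hasNf_FK h₀ M) hG
  exact int_of_isChart hG.unif (isChart_base_inv h₀ hℓ hℓA D hG) hO (rho_eq_zero_iff h₀)
    (mem_chart'_iff (isVert_base h₀ hℓ hℓA D hG) (isCoord_base_inv h₀ D hG) hO) hn y hy

/-- Finiteness of `bb` over `k[xb]`. -/
theorem fin_base (h₀ : IsUnif A₀ ϖ₀) (hℓ : ¬ ℓ ∣ M) (hℓA : (ℓ : K₀) / ϖ₀ ∈ A₀)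
    (D : BaseData M ℓ) (xb : bb A₀ (FK K₀ M) (D.xK K₀))
    (hxb : (xb : LaurentSeries (kk A₀)) = rho A₀ (FK K₀ M) ⟨D.xK K₀, xK_mem_gauss h₀ D⟩) :
    ∃ S : Finset (bb A₀ (FK K₀ M) (D.xK K₀)), ∀ y : bb A₀ (FK K₀ M) (D.xK K₀),
      y ∈ Submodule.span (kk A₀)
        {z : bb A₀ (FK K₀ M) (D.xK K₀) | ∃ g ∈ S, ∃ a : ℕ, z = xb ^ a * g} := by
  obtain ⟨Ow, hG⟩ := exists_isGauss h₀ M
  have hO := mem_gaussSubring_iff_mem h₀ (Gauss.hasNf_FK h₀ M) hG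
  exact fin_of_isCover (isCover_base h₀ hℓ hℓA D hG)
    (mem_chart'_iff (isVert_base h₀ hℓ hℓA D hG) (isCoord_base h₀ D hG) hO) _ xb hxb

end Fermat.Agent.S34.Nodal.Inst

end
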